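import Fermat.Agent.H78.ARTDefs

/-!
# Abstract representability: the limit datum attached to a tower
-/

set_option autoImplicit false

noncomputable section

namespace Fermat.Agent.H78

open IsLocalRing

/-- The inverse limit of a tower, packaged: a complete noetherian local `𝒪`-algebra `R` with
surjections `p n : R → MvPolynomial X 𝒪 ⧸ T.𝔞 n` whose kernels are the powers of the maximal
ideal, and a point `x` of `R` lifting all the tautological points. -/
structure LimitData {𝒪 : Type} [CommRing 𝒪] [IsLocalRing 𝒪] {X : Type} {c : X → 𝒪}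
    {P : PointPred 𝒪 X} (T : Tower c P) : Type 1 where
  R : Type
  [instCommRing : CommRing R]
  [instIsLocalRing : IsLocalRing R]
  [instIsNoetherianRing : IsNoetherianRing R]
  [instIsAdicComplete : IsAdicComplete (maximalIdeal R) R]
  [instAlgebra : Algebra 𝒪 R]
  [instIsLocalHom : IsLocalHom (algebraMap 𝒪 R)]
  residue_surjective : Function.Surjective (IsLocalRing.residue R ∘ algebraMap 𝒪 R)
  p : ∀ n : ℕ, R →ₐ[𝒪] MvPolynomial X 𝒪 ⧸ T.𝔞 n
  p_surjective : ∀ n, Function.Surjective (p n)
  ker_p : ∀ n, RingHom.ker (p n : R →+* MvPolynomial X 𝒪 ⧸ T.𝔞 n) = maximalIdeal R ^ (n + 1)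
  x : X → R
  p_x : ∀ n f, p n (x f) = taut (T.𝔞 n) f

attribute [instance] LimitData.instCommRing LimitData.instIsLocalRing
  LimitData.instIsNoetherianRing LimitData.instIsAdicComplete
  LimitData.instAlgebra LimitData.instIsLocalHom

end Fermat.Agent.H78
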