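import Mathlib
import Fermat.Prelude.Def_GaloisRep_DeformationCondition

/-!
# Abstract representability: definitions

`X` is a type of "coordinates", `c : X → 𝒪` a base point.  A *point* with values in a local
`𝒪`-algebra `A` is a function `x : X → A`.  `P` is a predicate on points (a subfunctor of
`A ↦ (X → A)`).  We list the closure properties of `P` which make it pro-representable.
-/

set_option autoImplicit false

noncomputable section

namespace Fermat.Agent.H78

open IsLocalRing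

/-- A predicate on `A`-valued points, for all local `𝒪`-algebras `A` (in `Type`). -/
abbrev PointPred (𝒪 : Type) [CommRing 𝒪] (X : Type) : Type 1 :=
  ∀ ⦃A : Type⦄ [CommRing A] [IsLocalRing A] [Algebra 𝒪 A], (X → A) → Prop

/-- The `𝒪`-algebra structure on the dual numbers `k[ε]` over the residue field `k` of `𝒪`
used in `GaloisRep.TangentFinite` (through `𝒪 → k → k[ε]`). -/
@[reducible] def dualNumberAlgebra (𝒪 : Type) [CommRing 𝒪] [IsLocalRing 𝒪] :
    Algebra 𝒪 (DualNumber (ResidueField 𝒪)) :=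
  ((algebraMap (ResidueField 𝒪) (DualNumber (ResidueField 𝒪))).comp
    (algebraMap 𝒪 (ResidueField 𝒪))).toAlgebra

/-- Closure properties of a predicate on points making it pro-representable. -/
structure IsProRepresentablePred (𝒪 : Type) [CommRing 𝒪] [IsLocalRing 𝒪] {X : Type}
    (c : X → 𝒪) (P : PointPred 𝒪 X) : Prop where
  /-- points satisfying `P` reduce to the base point -/
  red : ∀ ⦃A : Type⦄ [CommRing A] [IsLocalRing A] [Algebra 𝒪 A] (x : X → A), P x →
    ∀ f, x f - algebraMap 𝒪 A (c f) ∈ maximalIdeal A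
  /-- push-forward along local algebra homs of Artinian test algebras -/
  push : ∀ ⦃A B : Type⦄ [CommRing A] [IsLocalRing A] [Algebra 𝒪 A]
    [CommRing B] [IsLocalRing B] [Algebra 𝒪 B],
    GaloisRep.IsArtinianTestAlgebra 𝒪 A → GaloisRep.IsArtinianTestAlgebra 𝒪 B →
    ∀ (φ : A →ₐ[𝒪] B), IsLocalHom (φ : A →+* B) → ∀ (x : X → A), P x → P (φ ∘ x)
  /-- descent along injective local algebra homs of Artinian test algebras -/
  desc : ∀ ⦃A B : Type⦄ [CommRing A] [IsLocalRing A] [Algebra 𝒪 A]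
    [CommRing B] [IsLocalRing B] [Algebra 𝒪 B],
    GaloisRep.IsArtinianTestAlgebra 𝒪 A → GaloisRep.IsArtinianTestAlgebra 𝒪 B →
    ∀ (φ : A →ₐ[𝒪] B), IsLocalHom (φ : A →+* B) → Function.Injective φ →
    ∀ (x : X → A), P (φ ∘ x) → P x
  /-- gluing over fibre products of Artinian test algebras -/
  fib : ∀ ⦃A B C Q : Type⦄ [CommRing A] [IsLocalRing A] [Algebra 𝒪 A]
    [CommRing B] [IsLocalRing B] [Algebra 𝒪 B] [CommRing C] [IsLocalRing C] [Algebra 𝒪 C]
    [CommRing Q] [IsLocalRing Q] [Algebra 𝒪 Q],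
    GaloisRep.IsArtinianTestAlgebra 𝒪 A → GaloisRep.IsArtinianTestAlgebra 𝒪 B →
    GaloisRep.IsArtinianTestAlgebra 𝒪 C → GaloisRep.IsArtinianTestAlgebra 𝒪 Q →
    ∀ (f : A →ₐ[𝒪] C) (g : B →ₐ[𝒪] C) (pA : Q →ₐ[𝒪] A) (pB : Q →ₐ[𝒪] B),
      IsLocalHom (pA : Q →+* A) → IsLocalHom (pB : Q →+* B) →
      f.comp pA = g.comp pB →
      Function.Injective (fun x => (pA x, pB x)) →
      (∀ a b, f a = g b → ∃ x, pA x = a ∧ pB x = b) →
      ∀ (x : X → Q), P (pA ∘ x) → P (pB ∘ x) → P x
  /-- a point of a complete noetherian test algebra satisfies `P` iff all its Artinian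
  quotients do -/
  lim : ∀ ⦃A : Type⦄ [CommRing A] [IsLocalRing A] [IsNoetherianRing A]
    [IsAdicComplete (maximalIdeal A) A] [Algebra 𝒪 A],
    IsLocalHom (algebraMap 𝒪 A) → Function.Surjective (IsLocalRing.residue A ∘ algebraMap 𝒪 A) →
    ∀ (x : X → A),
      P x ↔ ∀ ⦃B : Type⦄ [CommRing B] [IsLocalRing B] [Algebra 𝒪 B],
        GaloisRep.IsArtinianTestAlgebra 𝒪 B →
        ∀ (q : A →ₐ[𝒪] B), IsLocalHom (q : A →+* B) → Function.Surjective q → P (q ∘ x)
  /-- the base point (over the residue field) satisfies `P` -/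
  base : P (fun f => algebraMap 𝒪 (ResidueField 𝒪) (c f))
  /-- finitely many tangent vectors -/
  tfin : Finite {x : X → DualNumber (ResidueField 𝒪) //
    @P (DualNumber (ResidueField 𝒪)) _ _ (dualNumberAlgebra 𝒪) x}

/-- The conclusion of the abstract representability theorem: a universal point. -/
structure UniversalPoint (𝒪 : Type) [CommRing 𝒪] [IsLocalRing 𝒪] {X : Type}
    (P : PointPred 𝒪 X) : Type 1 where
  R : Type
  [instCommRing : CommRing R]
  [instIsLocalRing : IsLocalRing R]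
  [instIsNoetherianRing : IsNoetherianRing R]
  [instIsAdicComplete : IsAdicComplete (maximalIdeal R) R]
  [instAlgebra : Algebra 𝒪 R]
  [instIsLocalHom : IsLocalHom (algebraMap 𝒪 R)]
  residue_surjective : Function.Surjective (IsLocalRing.residue R ∘ algebraMap 𝒪 R)
  /-- the universal point -/
  x : X → R
  hx : P x
  /-- existence of the classifying map -/
  exists_hom : ∀ (A : Type) [CommRing A] [IsLocalRing A] [IsNoetherianRing A]
    [IsAdicComplete (maximalIdeal A) A] [Algebra 𝒪 A] [IsLocalHom (algebraMap 𝒪 A)],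
    Function.Surjective (IsLocalRing.residue A ∘ algebraMap 𝒪 A) →
    ∀ xA : X → A, P xA → ∃ φ : R →ₐ[𝒪] A, IsLocalHom (φ : R →+* A) ∧ φ ∘ x = xA
  /-- uniqueness of the classifying map (among local homs) -/
  hom_ext : ∀ (A : Type) [CommRing A] [IsLocalRing A] [IsNoetherianRing A]
    [IsAdicComplete (maximalIdeal A) A] [Algebra 𝒪 A] [IsLocalHom (algebraMap 𝒪 A)],
    Function.Surjective (IsLocalRing.residue A ∘ algebraMap 𝒪 A) →
    ∀ φ ψ : R →ₐ[𝒪] A, IsLocalHom (φ : R →+* A) → IsLocalHom (ψ : R →+* A) →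
      φ ∘ x = ψ ∘ x → φ = ψ

attribute [instance] UniversalPoint.instCommRing UniversalPoint.instIsLocalRing
  UniversalPoint.instIsNoetherianRing UniversalPoint.instIsAdicComplete
  UniversalPoint.instAlgebra UniversalPoint.instIsLocalHom

end Fermat.Agent.H78

noncomputable section

namespace Fermat.Agent.H78

open IsLocalRing

section internal

variable {𝒪 : Type} [CommRing 𝒪] [IsLocalRing 𝒪] {X : Type}

/-- The tautological point of the quotient `MvPolynomial X 𝒪 ⧸ 𝔞`. -/
def taut (𝔞 : Ideal (MvPolynomial X 𝒪)) : X → MvPolynomial X 𝒪 ⧸ 𝔞 :=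
  fun f => Ideal.Quotient.mk 𝔞 (MvPolynomial.X f)

/-- An ideal `𝔞` of the big polynomial ring is admissible if the quotient is an Artinian test
algebra and its tautological point satisfies `P`. -/
def Admissible (P : PointPred 𝒪 X) (𝔞 : Ideal (MvPolynomial X 𝒪)) : Prop :=
  ∃ (_ : IsLocalRing (MvPolynomial X 𝒪 ⧸ 𝔞)),
    GaloisRep.IsArtinianTestAlgebra 𝒪 (MvPolynomial X 𝒪 ⧸ 𝔞) ∧ P (taut 𝔞)

/-- The maximal ideal of the big polynomial ring at the base point `c`. -/
def baseIdeal (c : X → 𝒪) : Ideal (MvPolynomial X 𝒪) :=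
  RingHom.ker (MvPolynomial.aeval (fun f => algebraMap 𝒪 (ResidueField 𝒪) (c f)) :
    MvPolynomial X 𝒪 →ₐ[𝒪] ResidueField 𝒪)

/-- A tower of least admissible ideals, together with a finite set of coordinates generating
all levels. -/
structure Tower (c : X → 𝒪) (P : PointPred 𝒪 X) where
  /-- `𝔞 n` is the least admissible ideal containing `baseIdeal c ^ (n + 1)` -/
  𝔞 : ℕ → Ideal (MvPolynomial X 𝒪)
  adm : ∀ n, Admissible P (𝔞 n)
  pow_le : ∀ n, baseIdeal c ^ (n + 1) ≤ 𝔞 n
  least : ∀ n 𝔟, Admissible P 𝔟 → baseIdeal c ^ (n + 1) ≤ 𝔟 → 𝔞 n ≤ 𝔟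
  /-- finitely many coordinates generating every level -/
  F : Finset X
  gen : ∀ n, Algebra.adjoin 𝒪 ((taut (𝔞 n)) '' (F : Set X)) = ⊤

end internal

end Fermat.Agent.H78
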