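import Fermat.Agent.H78.Dict

/-!
# Dictionary: base change and matrices of a representation in a basis
-/

set_option autoImplicit false

noncomputable section

namespace Fermat.Agent.H78

open IsLocalRing Matrix
open scoped TensorProduct

variable {A : Type} [CommRing A] [IsLocalRing A]

lemma map_maximalIdeal_pow_le {B : Type} [CommRing B] [IsLocalRing B] (φ : A →+* B)
    [IsLocalHom φ] (n : ℕ) : (maximalIdeal A ^ n).map φ ≤ maximalIdeal B ^ n := by
  rw [Ideal.map_pow]
  exact Ideal.pow_right_mono (Ideal.map_le_iff_le_comap.mpr fun a ha =>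
    Ideal.mem_comap.mpr (map_nonunit φ a ha)) n

theorem MatCont.map {B : Type} [CommRing B] [IsLocalRing B] (φ : A →+* B) [IsLocalHom φ]
    {r : GalQ →* M2 A} (hr : MatCont r) :
    MatCont ((φ.mapMatrix : M2 A →+* M2 B).toMonoidHom.comp r) := by
  intro n
  obtain ⟨L, hL, hσ⟩ := hr n
  refine ⟨L, hL, fun σ hfix i j => ?_⟩
  have key : (((φ.mapMatrix : M2 A →+* M2 B).toMonoidHom.comp r) σ - 1) i j
      = φ ((r σ - 1) i j) := by
    show ((φ.mapMatrix (r σ) : M2 B) - 1) i j = φ ((r σ - 1) i j)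
    rw [← map_one (φ.mapMatrix : M2 A →+* M2 B), ← map_sub]
    rfl
  rw [key]
  exact map_maximalIdeal_pow_le φ n (Ideal.mem_map_of_mem φ (hσ σ hfix i j))

theorem baseChangeAlong_ofMatrix_isEquiv {B : Type} [CommRing B] [IsLocalRing B]
    (φ : A →+* B) (hφ : IsLocalHom φ) {r : GalQ →* M2 A} (hr : MatCont r)
    (hr' : MatCont ((φ.mapMatrix : M2 A →+* M2 B).toMonoidHom.comp r)) :
    ((ofMatrix r hr).baseChangeAlong φ hφ).IsEquiv
      (ofMatrix ((φ.mapMatrix : M2 A →+* M2 B).toMonoidHom.comp r) hr') := by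
  letI : Algebra A B := φ.toAlgebra
  let b₁ : Module.Basis (Fin 2) B (B ⊗[A] (Fin 2 → A)) :=
    Algebra.TensorProduct.basis B (Pi.basisFun A (Fin 2))
  refine ⟨⟨b₁.equivFun, fun σ x => ?_⟩⟩
  show b₁.equivFun ((Matrix.toLin' (r σ)).baseChange B x)
    = (φ.mapMatrix (r σ)).mulVec (b₁.equivFun x)
  have h1 := LinearMap.toMatrix_mulVec_repr b₁ b₁ ((Matrix.toLin' (r σ)).baseChange B) x
  have h2 : LinearMap.toMatrix b₁ b₁ ((Matrix.toLin' (r σ)).baseChange B)
      = φ.mapMatrix (r σ) := by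
    rw [LinearMap.toMatrix_baseChange, LinearMap.toMatrix_eq_toMatrix',
      LinearMap.toMatrix'_toLin']
    rfl
  rw [h2] at h1
  ext i
  have := congrFun h1 i
  simpa [Module.Basis.equivFun_apply] using this.symm

lemma repr_mem_of_mem_smul_top {V : Type} [AddCommGroup V] [Module A V]
    (b : Module.Basis (Fin 2) A V) (I : Ideal A) {x : V}
    (hx : x ∈ I • (⊤ : Submodule A V)) (i : Fin 2) : b.repr x i ∈ I := by
  refine Submodule.smul_induction_on hx ?_ ?_
  · intro a ha v _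
    rw [map_smul, Finsupp.smul_apply, smul_eq_mul]
    exact I.mul_mem_right _ ha
  · intro x y hx hy
    rw [map_add, Finsupp.add_apply]
    exact I.add_mem hx hy

theorem exists_ofMatrix_isEquiv (ρ : GaloisRepAdic A) (b : Module.Basis (Fin 2) A ρ.V) :
    ∃ (r : GalQ →* M2 A) (hr : MatCont r), (ofMatrix r hr).IsEquiv ρ ∧
      ∀ σ, r σ = LinearMap.toMatrix b b (ρ.ρ σ) := by
  let r : GalQ →* M2 A :=
    ((LinearMap.toMatrixAlgEquiv b : Module.End A ρ.V ≃ₐ[A] M2 A) :
      Module.End A ρ.V →* M2 A).comp ρ.ρ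
  have hr_apply : ∀ σ, r σ = LinearMap.toMatrix b b (ρ.ρ σ) := fun σ => rfl
  have hr : MatCont r := by
    intro n
    obtain ⟨L, hL, hσ⟩ := ρ.isAdicContinuous n
    refine ⟨L, hL, fun σ hfix i j => ?_⟩
    have : (r σ - 1) i j = b.repr (ρ.ρ σ (b j) - b j) i := by
      rw [hr_apply, Matrix.sub_apply, LinearMap.toMatrix_apply, map_sub, Finsupp.sub_apply,
        Module.Basis.repr_self, Matrix.one_apply, Finsupp.single_apply]
      congr 1
      by_cases hij : i = j
      · simp [hij]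
      · simp [hij, Ne.symm hij]
    rw [this]
    exact repr_mem_of_mem_smul_top b _ (hσ σ hfix (b j)) i
  refine ⟨r, hr, ⟨⟨b.equivFun.symm, fun σ x => ?_⟩⟩, hr_apply⟩
  show b.equivFun.symm ((r σ).mulVec x) = ρ.ρ σ (b.equivFun.symm x)
  apply b.equivFun.injective
  rw [LinearEquiv.apply_symm_apply]
  have h1 := LinearMap.toMatrix_mulVec_repr b b (ρ.ρ σ) (b.equivFun.symm x)
  rw [← hr_apply] at h1
  ext i
  have := congrFun h1 i
  simpa [Module.Basis.equivFun_apply] using this

end Fermat.Agent.H78
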