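import Fermat.Agent.H78.MatDefs

/-!
# Gauges adapted to a residual representation
-/

set_option autoImplicit false

noncomputable section

namespace Fermat.Agent.H78

open IsLocalRing

/-- `G` is a gauge for `ρbar` with respect to the basis `β`: the set-theoretic lift `G.lift`
reduces to the matrices of `ρbar` in the basis `β`. -/
def Gauge.IsFor {𝒪 : Type} [CommRing 𝒪] [IsLocalRing 𝒪] (G : Gauge 𝒪)
    (ρbar : ResidualGaloisRep (ResidueField 𝒪))
    (β : Module.Basis (Fin 2) (ResidueField 𝒪) ρbar.V) : Prop :=
  ∀ σ a b, residue 𝒪 (G.lift σ a b) = LinearMap.toMatrix β β (ρbar.ρ σ) a b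

end Fermat.Agent.H78
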