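import Fermat.Agent.H78.DictBC
import Fermat.Agent.H78.ResidDefs
import Fermat.Agent.H52.Dict2

/-!
# Dictionary: residual representations

The two halves of the residual dictionary, in the `H78` vocabulary, deduced from the
corresponding statements of `Fermat.Agent.H52.Dict2`.
-/

set_option autoImplicit false

noncomputable section

namespace Fermat.Agent.H78

open IsLocalRing Matrix
open scoped TensorProduct

section bridge

variable {A : Type} [CommRing A] [IsLocalRing A]

/-- `H52.MatCont` and `H78.MatCont` agree. -/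
lemma matCont_of_h52 {r : GalQ →* M2 A} (h : Fermat.Agent.H52.MatCont r) : MatCont r := h

lemma h52_matCont_of {r : GalQ →* M2 A} (h : MatCont r) : Fermat.Agent.H52.MatCont r := h

/-- `H52.ofMat` and `H78.ofMatrix` are equivalent (the identity map). -/
lemma ofMatrix_isEquiv_ofMat {r : GalQ →* M2 A} (hr : MatCont r)
    (h : Fermat.Agent.H52.MatCont r) :
    (ofMatrix r hr).IsEquiv (Fermat.Agent.H52.ofMat r h) :=
  ⟨{ toLinearEquiv := LinearEquiv.refl A (Fin 2 → A), map_apply := fun _ _ => rfl }⟩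

end bridge

variable {𝒪 : Type} [CommRing 𝒪] [IsLocalRing 𝒪]
variable {A : Type} [CommRing A] [IsLocalRing A] [Algebra 𝒪 A] [IsLocalHom (algebraMap 𝒪 A)]

lemma residue_algebraMap_eq_map (c : 𝒪) :
    IsLocalRing.residue A (algebraMap 𝒪 A c)
      = IsLocalRing.ResidueField.map (algebraMap 𝒪 A) (IsLocalRing.residue 𝒪 c) := rfl

theorem residual_isEquiv_of_isLift {G : Gauge 𝒪}
    {ρbar : ResidualGaloisRep (ResidueField 𝒪)}
    {β : Module.Basis (Fin 2) (ResidueField 𝒪) ρbar.V} (hG : G.IsFor ρbar β)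
    {r : GalQ →* M2 A} (hr : MatCont r) (hl : IsLift G r) :
    (ofMatrix r hr).residual.IsEquiv
      (ρbar.baseChangeAlong (IsLocalRing.ResidueField.map (algebraMap 𝒪 A))) := by
  have key : ∀ σ i j, residue A (r σ i j) =
      (IsLocalRing.ResidueField.map (algebraMap 𝒪 A))
        (LinearMap.toMatrix β β (ρbar.ρ σ) i j) := by
    intro σ i j
    rw [← hG σ i j, ← residue_algebraMap_eq_map]
    have h := hl σ i j
    rw [← Ideal.Quotient.eq] at h
    exact h
  exact Fermat.Agent.H52.residual_ofMat_isEquiv ρbar β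
    (IsLocalRing.ResidueField.map (algebraMap 𝒪 A)) r (h52_matCont_of hr) key

theorem exists_lift_of_residual_isEquiv {G : Gauge 𝒪}
    {ρbar : ResidualGaloisRep (ResidueField 𝒪)}
    {β : Module.Basis (Fin 2) (ResidueField 𝒪) ρbar.V} (hG : G.IsFor ρbar β)
    (ρA : GaloisRepAdic A)
    (h : ρA.residual.IsEquiv
      (ρbar.baseChangeAlong (IsLocalRing.ResidueField.map (algebraMap 𝒪 A)))) :
    ∃ (r : GalQ →* M2 A) (hr : MatCont r), (ofMatrix r hr).IsEquiv ρA ∧ IsLift G r := by
  obtain ⟨b, hb⟩ := Fermat.Agent.H52.exists_basis_of_residual_isEquiv ρA ρbar β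
    (IsLocalRing.ResidueField.map (algebraMap 𝒪 A)) h
  have hc : MatCont (Fermat.Agent.H52.toMatRep ρA b) :=
    matCont_of_h52 (Fermat.Agent.H52.toMatRep_cont ρA b)
  refine ⟨Fermat.Agent.H52.toMatRep ρA b, hc, ?_, ?_⟩
  · obtain ⟨e⟩ := Fermat.Agent.H52.isEquiv_toMatRep ρA b
    obtain ⟨e'⟩ := ofMatrix_isEquiv_ofMat hc (Fermat.Agent.H52.toMatRep_cont ρA b)
    exact ⟨e'.trans e.symm⟩
  · intro σ i j
    have h1 := hb σ i j
    rw [← hG σ i j, ← residue_algebraMap_eq_map] at h1
    have h2 : IsLocalRing.residue A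
        (Fermat.Agent.H52.toMatRep ρA b σ i j - algebraMap 𝒪 A (G.lift σ i j)) = 0 := by
      rw [map_sub, h1, sub_self]
    exact (IsLocalRing.residue_eq_zero_iff _).mp h2

end Fermat.Agent.H78
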