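import Fermat.Agent.H78.DictConj
import Fermat.Agent.H78.DictBC
import Fermat.Agent.H78.ResidDefs
import Fermat.Agent.H78.Resid
import Fermat.Agent.H41.MatU
import Fermat.Agent.H55.MatE
import Fermat.Prelude.Def_GaloisRep_DeformationRingData

/-!
# Assembly: a universal point of the normalized deformation functor gives a
`DeformationRingData`.
-/

set_option autoImplicit false
noncomputable section
namespace Fermat.Agent.H78
open IsLocalRing Matrix

/-! ## Assembly -/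

section helpers

variable {𝒪 : Type} [CommRing 𝒪] [IsLocalRing 𝒪]
variable {A : Type} [CommRing A] [IsLocalRing A] [Algebra 𝒪 A]
variable {B : Type} [CommRing B] [IsLocalRing B] [Algebra 𝒪 B]

/-- Push-forward of a normalized lift along a local algebra hom is a normalized lift. -/
theorem IsNormLift.map {G : Gauge 𝒪} {r : GalQ →* M2 A} (hr : IsNormLift G r)
    (φ : A →ₐ[𝒪] B) (hφ : IsLocalHom (φ : A →+* B)) :
    IsNormLift G (((φ : A →+* B).mapMatrix : M2 A →+* M2 B).toMonoidHom.comp r) := by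
  refine ⟨fun σ a b => ?_, ?_, ?_, ?_⟩
  · have h := hr.red σ a b
    have : (((φ : A →+* B).mapMatrix : M2 A →+* M2 B).toMonoidHom.comp r) σ a b
        - algebraMap 𝒪 B (G.lift σ a b) = φ (r σ a b - algebraMap 𝒪 A (G.lift σ a b)) := by
      rw [map_sub, AlgHom.commutes]
      rfl
    rw [this]
    exact map_nonunit (φ : A →+* B) _ h
  · show φ (r G.ga 0 0) = 0
    rw [hr.col0, map_zero]
  · show φ (r G.ga 1 0) = 1
    rw [hr.col1, map_one]
  · show φ (r G.gb G.i G.j) = _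
    rw [hr.entry, AlgHom.commutes]

theorem ofMatrix_isEquiv_of_eq {r r' : GalQ →* M2 A} (hr : MatCont r) (hr' : MatCont r')
    (h : ∀ σ, r' σ = r σ) : (ofMatrix r hr).IsEquiv (ofMatrix r' hr') := by
  refine ofMatrix_isEquiv_of_conj hr hr' 1 fun σ => ?_
  rw [h σ]
  simp

end helpers

section assembly

variable {𝒪 : Type} [CommRing 𝒪] [IsDomain 𝒪] [IsDiscreteValuationRing 𝒪]
  [IsAdicComplete (maximalIdeal 𝒪) 𝒪] [Finite (ResidueField 𝒪)]

/-- Invariance of `𝒟` under equivalence over complete noetherian test algebras. -/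
theorem isOfType_of_isEquiv
    {𝒟 : ∀ ⦃A : Type⦄ [CommRing A] [IsLocalRing A] [Algebra 𝒪 A], GaloisRepAdic A → Prop}
    (h𝒟 : GaloisRep.IsDeformationCondition 𝒪 𝒟)
    {A : Type} [CommRing A] [IsLocalRing A] [IsNoetherianRing A]
    [IsAdicComplete (maximalIdeal A) A] [Algebra 𝒪 A] (hloc : IsLocalHom (algebraMap 𝒪 A))
    (hsurj : Function.Surjective (IsLocalRing.residue A ∘ algebraMap 𝒪 A))
    {ρ ρ' : GaloisRepAdic A} (e : ρ.IsEquiv ρ') (h : 𝒟 ρ) : 𝒟 ρ' := by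
  rw [h𝒟.iff_forall_surjective hloc hsurj] at h ⊢
  intro B _ _ _ hB q hq hqs
  obtain ⟨e⟩ := e
  exact h𝒟.of_isEquiv hB ⟨e.baseChangeAlong (q : A →+* B) hq⟩ (h hB q hq hqs)

theorem deformationRingData_of_universalPoint {G : Gauge 𝒪}
    {ρbar : ResidualGaloisRep (ResidueField 𝒪)}
    {β : Module.Basis (Fin 2) (ResidueField 𝒪) ρbar.V} (hG : G.IsFor ρbar β)
    (habs : ρbar.IsAbsolutelyIrreducible)
    (𝒟 : ∀ ⦃A : Type⦄ [CommRing A] [IsLocalRing A] [Algebra 𝒪 A], GaloisRepAdic A → Prop)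
    (h𝒟 : GaloisRep.IsDeformationCondition 𝒪 𝒟)
    (U : UniversalPoint 𝒪 (defPred G 𝒟)) :
    Nonempty (GaloisRep.DeformationRingData 𝒪 ρbar 𝒟) := by
  obtain ⟨r, hr, hrx, hnorm, htype⟩ := U.hx
  refine ⟨{
    R := U.R
    residue_surjective := U.residue_surjective
    absIrr := habs
    ρ := ofMatrix r hr
    isOfType := htype
    residual_isEquiv := residual_isEquiv_of_isLift hG hr hnorm.red
    universal := ?_ }⟩
  intro A _ _ _ _ _ _ hsurj ρA hρA hres
  obtain ⟨rA, hrA, eA, hliftA⟩ := exists_lift_of_residual_isEquiv hG ρA hres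
  obtain ⟨W, rA', hnormA, hconj⟩ := Fermat.Agent.H55.exists_normLift_conj (G := G) hliftA
  have hrA' : MatCont rA' := hrA.conj W hconj
  have e1 : (ofMatrix rA hrA).IsEquiv (ofMatrix rA' hrA') :=
    ofMatrix_isEquiv_of_conj hrA hrA' W hconj
  have e2 : ρA.IsEquiv (ofMatrix rA' hrA') := by
    obtain ⟨a⟩ := eA
    obtain ⟨b⟩ := e1
    exact ⟨a.symm.trans b⟩
  have htypeA : 𝒟 (ofMatrix rA' hrA') := isOfType_of_isEquiv h𝒟 inferInstance hsurj e2 hρA
  let xA : Coord → A := fun f => rA' f.1 f.2.1 f.2.2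
  have hxA : defPred G 𝒟 xA := ⟨rA', hrA', fun _ _ _ => rfl, hnormA, htypeA⟩
  obtain ⟨φ, hφ, hφx⟩ := U.exists_hom A hsurj xA hxA
  -- key: a local hom `ψ` with `ρ ⊗_ψ A ≅ ρA` satisfies `ψ ∘ x = xA`
  have key : ∀ (ψ : U.R →ₐ[𝒪] A) (hψ : IsLocalHom (ψ : U.R →+* A)),
      ((ofMatrix r hr).baseChangeAlong (ψ : U.R →+* A) hψ).IsEquiv ρA → ψ ∘ U.x = xA := by
    intro ψ hψ hE
    haveI := hψ
    have hrψ : MatCont (((ψ : U.R →+* A).mapMatrix : M2 U.R →+* M2 A).toMonoidHom.comp r) :=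
      hr.map (ψ : U.R →+* A)
    have e3 := baseChangeAlong_ofMatrix_isEquiv (ψ : U.R →+* A) hψ hr hrψ
    have e4 : (ofMatrix (((ψ : U.R →+* A).mapMatrix : M2 U.R →+* M2 A).toMonoidHom.comp r)
        hrψ).IsEquiv (ofMatrix rA' hrA') := by
      obtain ⟨a⟩ := e3
      obtain ⟨b⟩ := hE
      obtain ⟨c⟩ := e2
      exact ⟨(a.symm.trans b).trans c⟩
    obtain ⟨W', hW'⟩ := exists_conj_of_ofMatrix_isEquiv hrψ hrA' e4
    have hnψ := hnorm.map ψ hψ
    have := Fermat.Agent.H41.IsNormLift.eq_of_conj hnψ hnormA W' hW'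
    funext f
    obtain ⟨σ, a, b⟩ := f
    show ψ (U.x (σ, a, b)) = rA' σ a b
    rw [this, ← hrx]
    rfl
  refine ⟨φ, ⟨hφ, ?_⟩, ?_⟩
  · -- existence
    haveI := hφ
    have hrφ : MatCont (((φ : U.R →+* A).mapMatrix : M2 U.R →+* M2 A).toMonoidHom.comp r) :=
      hr.map (φ : U.R →+* A)
    have e3 := baseChangeAlong_ofMatrix_isEquiv (φ : U.R →+* A) hφ hr hrφ
    have e5 : (ofMatrix (((φ : U.R →+* A).mapMatrix : M2 U.R →+* M2 A).toMonoidHom.comp r)
        hrφ).IsEquiv (ofMatrix rA' hrA') := by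
      refine (ofMatrix_isEquiv_of_eq hrφ hrA' fun σ => ?_)
      ext a b
      have := congrFun hφx (σ, a, b)
      show rA' σ a b = φ (r σ a b)
      rw [hrx]
      exact this.symm
    obtain ⟨a⟩ := e3
    obtain ⟨b⟩ := e5
    obtain ⟨c⟩ := e2
    exact ⟨(a.trans b).trans c.symm⟩
  · -- uniqueness
    rintro ψ ⟨hψ, hE⟩
    exact U.hom_ext A hsurj ψ φ hψ hφ ((key ψ hψ hE).trans hφx.symm)

end assembly
end Fermat.Agent.H78
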