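import Mathlib
import Fermat.Prelude.Def_GaloisRep_DeformationRingData
import Fermat.Prelude.Def_GaloisRep_DeformationCondition

set_option autoImplicit false

noncomputable section

namespace Fermat.Agent.H78

open IsLocalRing Matrix
open scoped TensorProduct

/-- The absolute Galois group of `ℚ`. -/
abbrev GalQ : Type := AlgebraicClosure ℚ ≃ₐ[ℚ] AlgebraicClosure ℚ

/-- `2 × 2` matrices. -/
abbrev M2 (A : Type) : Type := Matrix (Fin 2) (Fin 2) A

section ofMatrix

variable {A : Type} [CommRing A] [IsLocalRing A]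

/-- Adic continuity of a matrix valued map. -/
def MatCont (r : GalQ → M2 A) : Prop :=
  ∀ n : ℕ, ∃ L : IntermediateField ℚ (AlgebraicClosure ℚ), FiniteDimensional ℚ L ∧
    ∀ σ : GalQ, (∀ x ∈ L, σ x = x) → ∀ i j, (r σ - 1) i j ∈ maximalIdeal A ^ n

/-- The monoid hom `M2 A →* End (Fin 2 → A)`. -/
def toEndHom (A : Type) [CommRing A] : M2 A →* Module.End A (Fin 2 → A) :=
  ((Matrix.toLinAlgEquiv' : M2 A ≃ₐ[A] Module.End A (Fin 2 → A)) : M2 A →* Module.End A (Fin 2 → A))

@[simp] lemma toEndHom_apply (m : M2 A) (v : Fin 2 → A) : toEndHom A m v = m.mulVec v := rfl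

lemma mem_smul_top_of_forall_mem (I : Ideal A) (w : Fin 2 → A) (hw : ∀ i, w i ∈ I) :
    w ∈ I • (⊤ : Submodule A (Fin 2 → A)) := by
  have : w = ∑ i, w i • (Pi.single i (1 : A) : Fin 2 → A) := by
    ext j
    simp [Finset.sum_apply, Pi.single_apply]
  rw [this]
  exact Submodule.sum_mem _ fun i _ => Submodule.smul_mem_smul (hw i) Submodule.mem_top

lemma forall_mem_of_mem_smul_top (I : Ideal A) (w : Fin 2 → A)
    (hw : w ∈ I • (⊤ : Submodule A (Fin 2 → A))) : ∀ i, w i ∈ I := by
  intro i
  refine Submodule.smul_induction_on hw ?_ ?_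
  · intro a ha v _
    simpa using I.mul_mem_right _ ha
  · intro x y hx hy
    simpa using I.add_mem hx hy

/-- The Galois representation attached to a continuous matrix valued homomorphism. -/
def ofMatrix (r : GalQ →* M2 A) (hr : MatCont r) : GaloisRepAdic A where
  V := Fin 2 → A
  finrank_eq := by simp
  ρ := (toEndHom A).comp r
  isAdicContinuous := by
    intro n
    obtain ⟨L, hL, h⟩ := hr n
    refine ⟨L, hL, fun σ hσ v => ?_⟩
    apply mem_smul_top_of_forall_mem
    intro i
    have : ((toEndHom A).comp r) σ v - v = (r σ - 1).mulVec v := by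
      simp [Matrix.sub_mulVec]
    rw [this]
    simp only [Matrix.mulVec, dotProduct]
    exact Ideal.sum_mem _ fun j _ => Ideal.mul_mem_right _ _ (h σ hσ i j)

@[simp] lemma ofMatrix_ρ_apply (r : GalQ →* M2 A) (hr : MatCont r) (σ : GalQ)
    (v : Fin 2 → A) : (ofMatrix r hr).ρ σ v = (r σ).mulVec v := rfl

end ofMatrix

end Fermat.Agent.H78
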