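import Fermat.Agent.H78.Dict

/-!
# Dictionary: conjugation of matrix representations
-/

set_option autoImplicit false

noncomputable section

namespace Fermat.Agent.H78

open IsLocalRing Matrix

variable {A : Type} [CommRing A] [IsLocalRing A]

theorem MatCont.conj {r r' : GalQ →* M2 A} (hr : MatCont r) (U : (M2 A)ˣ)
    (h : ∀ σ, r' σ = (U : M2 A) * r σ * ((U⁻¹ : (M2 A)ˣ) : M2 A)) : MatCont r' := by
  intro n
  obtain ⟨L, hL, hσ⟩ := hr n
  refine ⟨L, hL, fun σ hfix i j => ?_⟩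
  have key : r' σ - 1 = (U : M2 A) * (r σ - 1) * ((U⁻¹ : (M2 A)ˣ) : M2 A) := by
    rw [h σ, Matrix.mul_sub, Matrix.sub_mul, Matrix.mul_one, Units.mul_inv]
  rw [key]
  simp only [Matrix.mul_apply]
  refine Ideal.sum_mem _ fun k _ => Ideal.mul_mem_right _ _ ?_
  refine Ideal.sum_mem _ fun l _ => Ideal.mul_mem_left _ _ ?_
  exact hσ σ hfix l k

theorem ofMatrix_isEquiv_of_conj {r r' : GalQ →* M2 A} (hr : MatCont r) (hr' : MatCont r')
    (U : (M2 A)ˣ) (h : ∀ σ, r' σ = (U : M2 A) * r σ * ((U⁻¹ : (M2 A)ˣ) : M2 A)) :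
    (ofMatrix r hr).IsEquiv (ofMatrix r' hr') := by
  refine ⟨⟨?_, ?_⟩⟩
  · exact
      { toFun := fun v => (U : M2 A).mulVec v
        map_add' := fun v w => Matrix.mulVec_add _ v w
        map_smul' := fun a v => Matrix.mulVec_smul _ a v
        invFun := fun v => ((U⁻¹ : (M2 A)ˣ) : M2 A).mulVec v
        left_inv := fun v => by
          show ((U⁻¹ : (M2 A)ˣ) : M2 A).mulVec ((U : M2 A).mulVec v) = v
          rw [Matrix.mulVec_mulVec, Units.inv_mul, Matrix.one_mulVec]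
        right_inv := fun v => by
          show (U : M2 A).mulVec (((U⁻¹ : (M2 A)ˣ) : M2 A).mulVec v) = v
          rw [Matrix.mulVec_mulVec, Units.mul_inv, Matrix.one_mulVec] }
  · intro σ x
    show (U : M2 A).mulVec ((r σ).mulVec x) = (r' σ).mulVec ((U : M2 A).mulVec x)
    rw [h σ, Matrix.mulVec_mulVec, Matrix.mulVec_mulVec, Matrix.mul_assoc, Matrix.mul_assoc,
      Units.inv_mul, Matrix.mul_one]

theorem exists_conj_of_ofMatrix_isEquiv {r r' : GalQ →* M2 A} (hr : MatCont r)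
    (hr' : MatCont r') (h : (ofMatrix r hr).IsEquiv (ofMatrix r' hr')) :
    ∃ U : (M2 A)ˣ, ∀ σ, r' σ = (U : M2 A) * r σ * ((U⁻¹ : (M2 A)ˣ) : M2 A) := by
  obtain ⟨e⟩ := h
  let E : (Fin 2 → A) ≃ₗ[A] (Fin 2 → A) := e.toLinearEquiv
  let U : M2 A := LinearMap.toMatrix' (E : (Fin 2 → A) →ₗ[A] (Fin 2 → A))
  let U' : M2 A := LinearMap.toMatrix' (E.symm : (Fin 2 → A) →ₗ[A] (Fin 2 → A))
  have hUU' : U * U' = 1 := by
    rw [← LinearMap.toMatrix'_comp]
    have : ((E : (Fin 2 → A) →ₗ[A] (Fin 2 → A)).comp (E.symm : (Fin 2 → A) →ₗ[A] (Fin 2 → A)))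
        = LinearMap.id :=
      LinearMap.ext fun v => by simp
    rw [this, LinearMap.toMatrix'_id]
  have hU'U : U' * U = 1 := by
    rw [← LinearMap.toMatrix'_comp]
    have : ((E.symm : (Fin 2 → A) →ₗ[A] (Fin 2 → A)).comp (E : (Fin 2 → A) →ₗ[A] (Fin 2 → A)))
        = LinearMap.id :=
      LinearMap.ext fun v => by simp
    rw [this, LinearMap.toMatrix'_id]
  refine ⟨⟨U, U', hUU', hU'U⟩, fun σ => ?_⟩
  show r' σ = U * r σ * U'
  have hcomm : U * r σ = r' σ * U := by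
    have h1 : (E : (Fin 2 → A) →ₗ[A] (Fin 2 → A)).comp (Matrix.toLin' (r σ))
        = (Matrix.toLin' (r' σ)).comp (E : (Fin 2 → A) →ₗ[A] (Fin 2 → A)) :=
      LinearMap.ext fun v => e.map_apply σ v
    have h2 := congrArg LinearMap.toMatrix' h1
    rwa [LinearMap.toMatrix'_comp, LinearMap.toMatrix'_comp, LinearMap.toMatrix'_toLin',
      LinearMap.toMatrix'_toLin'] at h2
  rw [hcomm, Matrix.mul_assoc, hUU', Matrix.mul_one]

end Fermat.Agent.H78
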