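import Fermat.Agent.H78.Dict
import Fermat.Agent.H78.ARTDefs

/-!
# Matrix lifts, gauge fixing: definitions
-/

set_option autoImplicit false

noncomputable section

namespace Fermat.Agent.H78

open IsLocalRing Matrix

/-- Gauge data used to rigidify lifts: a set-theoretic lift `lift σ` of the residual matrices,
two group elements `ga`, `gb` and an entry `(i, j)` such that `lift ga` has first column
`(0, 1)ᵗ` (companion form) and the `(i, j)` entry of the commutator of `lift ga` and `lift gb`
is a unit. -/
structure Gauge (𝒪 : Type) [CommRing 𝒪] [IsLocalRing 𝒪] where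
  lift : GalQ → M2 𝒪
  ga : GalQ
  gb : GalQ
  i : Fin 2
  j : Fin 2
  ga_col0 : lift ga 0 0 = 0
  ga_col1 : lift ga 1 0 = 1
  comm_unit : IsUnit ((lift ga * lift gb - lift gb * lift ga) i j)

variable {𝒪 : Type} [CommRing 𝒪] [IsLocalRing 𝒪]
variable {A : Type} [CommRing A] [IsLocalRing A] [Algebra 𝒪 A]

/-- `r` reduces to the residual representation (entrywise congruence to `G.lift`). -/
def IsLift (G : Gauge 𝒪) (r : GalQ → M2 A) : Prop :=
  ∀ σ a b, r σ a b - algebraMap 𝒪 A (G.lift σ a b) ∈ maximalIdeal A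

/-- A normalized lift: reduces to the residual representation, `r ga` has first column
`(0, 1)ᵗ`, and the `(i, j)` entry of `r gb` is the fixed constant. -/
structure IsNormLift (G : Gauge 𝒪) (r : GalQ → M2 A) : Prop where
  red : IsLift G r
  col0 : r G.ga 0 0 = 0
  col1 : r G.ga 1 0 = 1
  entry : r G.gb G.i G.j = algebraMap 𝒪 A (G.lift G.gb G.i G.j)

/-- Coordinates of matrix valued functions on `GalQ`. -/
abbrev Coord : Type := GalQ × Fin 2 × Fin 2

/-- The base point for the deformation problem. -/
def Gauge.basePt (G : Gauge 𝒪) : Coord → 𝒪 := fun f => G.lift f.1 f.2.1 f.2.2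

/-- The predicate on points defining the (normalized) deformation functor of type `𝒟`. -/
def defPred (G : Gauge 𝒪)
    (𝒟 : ∀ ⦃A : Type⦄ [CommRing A] [IsLocalRing A] [Algebra 𝒪 A], GaloisRepAdic A → Prop) :
    PointPred 𝒪 Coord :=
  fun A _ _ _ x => ∃ (r : GalQ →* M2 A) (hr : MatCont r),
    (∀ σ a b, r σ a b = x (σ, a, b)) ∧ IsNormLift G r ∧ 𝒟 (ofMatrix r hr)

end Fermat.Agent.H78
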